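import Fermat.Agent.S59.H121.PeuSpec
import Fermat.Agent.Lib.Cheb.H476.Strong
import Fermat.Agent.Lib.Cheb.H643.FrobAt

/-!
# Row S59, cell TW, leaf TW-STRICT (b) PEU-FLAT — sub-leaf LAG (helper366, subtask 753)

    theorem lag : Fermat.Agent.S59.H121.LagStatement                         -- VERBATIM

Unramified Lagrange interpolation at a place `P ∣ p` of `ℚ̄`: for a Frobenius `φ` at `P` and
`n ≥ 1`, `z` a primitive `(p ^ n - 1)`-th root of unity:

* `z ∈ P`, the inertia group fixes `z`, `φ ^ i z = z ^ (p ^ i)` (`frob_pow_apply`), `φ ^ n z = z`;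
* roots of unity of order prime to `p` are pairwise incongruent modulo `𝔪_P`
  (`eq_of_sub_mem_nonunits`), so `x₀ - x_i` (`x_i = z ^ (p ^ i)`, `0 < i < n`) is a `P`-unit;
* `∑_j c_j X ^ j = ∏_{0 < i < n} (X - x_i) / (x₀ - x_i)` has coefficients in `P`.
-/

set_option autoImplicit false

namespace Fermat.Agent.S59.H366

open Fermat.Agent.S19 (Qb GalQ)
open Fermat.Agent.Lib.Cheb.H476 (mem_of_pow_eq_one natCast_mem_nonunits_of_root
  isFrobeniusAt_apply_of_pow_eq_one mul_mem_nonunits_of_mem one_notMem_nonunits)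
open Polynomial

section Roots

variable {P : ValuationSubring Qb} {p : ℕ}

/-- A natural number prime to `p` is a `P`-unit. -/
theorem natCast_notMem_nonunits_of_not_dvd (hp : p.Prime) (hP : P.LiesOverPrime p) {m : ℕ}
    (hm : ¬ p ∣ m) : (m : Qb) ∉ P.nonunits := by
  intro hmP
  have hcop : IsCoprime (p : ℤ) (m : ℤ) :=
    Nat.isCoprime_iff_coprime.mpr ((Nat.Prime.coprime_iff_not_dvd hp).mpr hm)
  obtain ⟨a, b, hab⟩ := hcop
  have h1 : ((a : ℤ) : Qb) * (p : Qb) + ((b : ℤ) : Qb) * (m : Qb) = 1 := by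
    have := congrArg (fun z : ℤ => (z : Qb)) hab
    simpa using this
  have h2 : (1 : Qb) ∈ P.nonunits := by
    rw [← h1]
    refine P.nonunits.add_mem ?_ ?_
    · rw [mul_comm]
      exact mul_mem_nonunits_of_mem P hP (intCast_mem P a)
    · rw [mul_comm]
      exact mul_mem_nonunits_of_mem P hmP (intCast_mem P b)
  exact one_notMem_nonunits P h2

/-- Roots of unity of order prime to `p` which are congruent modulo `𝔪_P` are equal. -/
theorem eq_of_sub_mem_nonunits (hp : p.Prime) (hP : P.LiesOverPrime p) {m : ℕ}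
    (hm : ¬ p ∣ m) {a b : Qb} (ha : a ^ m = 1) (hb : b ^ m = 1) (h : a - b ∈ P.nonunits) :
    a = b := by
  by_contra hne
  have hm0 : m ≠ 0 := fun h0 => hm (h0 ▸ dvd_zero p)
  have hb0 : b ≠ 0 := by
    rintro rfl
    rw [zero_pow hm0] at hb
    exact zero_ne_one hb
  have hη : (a * b⁻¹) ^ m = 1 := by rw [mul_pow, inv_pow, ha, hb, inv_one, one_mul]
  have hη1 : a * b⁻¹ ≠ 1 := by
    intro h1
    apply hne
    have := congrArg (· * b) h1
    simpa [hb0] using this
  have hbinv : b⁻¹ ∈ P := mem_of_pow_eq_one P hm0 (by rw [inv_pow, hb, inv_one])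
  have hsub : a * b⁻¹ - 1 ∈ P.nonunits := by
    have h1 : a * b⁻¹ - 1 = (a - b) * b⁻¹ := by rw [sub_mul, mul_inv_cancel₀ hb0]
    rw [h1]
    exact mul_mem_nonunits_of_mem P h hbinv
  exact natCast_notMem_nonunits_of_not_dvd hp hP hm (natCast_mem_nonunits_of_root P hη hη1 hsub)

/-- The powers of a Frobenius element on a root of unity of order prime to `p`. -/
theorem frob_pow_apply (hp : p.Prime) (hP : P.LiesOverPrime p) {φ : GalQ}
    (hφ : P.IsFrobeniusAt φ p) {m : ℕ} (hm : ¬ p ∣ m) {w : Qb} (hw : w ^ m = 1) (i : ℕ) :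
    (φ ^ i) w = w ^ (p ^ i) := by
  induction i with
  | zero => simp
  | succ i ih =>
    rw [pow_succ', AlgEquiv.mul_apply, ih, map_pow,
      isFrobeniusAt_apply_of_pow_eq_one hp hP hφ hm hw, ← pow_mul, ← pow_succ']

/-- The inertia group fixes the roots of unity of order prime to `p`. -/
theorem inertia_apply_of_pow_eq_one (hp : p.Prime) (hP : P.LiesOverPrime p) {γ : GalQ}
    (hγ : γ ∈ P.inertiaSubgroupIn ℚ) {m : ℕ} (hm : ¬ p ∣ m) {w : Qb} (hw : w ^ m = 1) :
    γ w = w := by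
  have hm0 : m ≠ 0 := fun h0 => hm (h0 ▸ dvd_zero p)
  refine eq_of_sub_mem_nonunits hp hP hm (by rw [← map_pow, hw, map_one]) hw ?_
  exact Fermat.Agent.Lib.Cheb.H643.inertia_sub_mem hγ (mem_of_pow_eq_one P hm0 hw)

/-- An element of `P` outside the maximal ideal has its inverse in `P`. -/
theorem inv_mem_of_notMem_nonunits {d : Qb} (hd : d ∈ P) (hd' : d ∉ P.nonunits) : d⁻¹ ∈ P := by
  rw [← P.valuation_le_one_iff] at hd ⊢
  rw [P.mem_nonunits_iff, not_lt] at hd'
  rw [map_inv₀, le_antisymm hd hd', inv_one]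

end Roots

/-- **Leaf LAG** of PEU-FLAT: unramified Lagrange interpolation. -/
theorem lag : Fermat.Agent.S59.H121.LagStatement := by
  intro p hp P hP φ hφ n hn
  classical
  -- the order `m = p ^ n - 1`
  have hpn : 1 < p ^ n := Nat.one_lt_pow hn.ne' hp.one_lt
  obtain ⟨m, hm1⟩ : ∃ m : ℕ, m + 1 = p ^ n := ⟨p ^ n - 1, Nat.sub_add_cancel hpn.le⟩
  have hm0 : m ≠ 0 := by omega
  have hpm : ¬ p ∣ m := by
    intro h
    have h2 : p ∣ m + 1 := hm1 ▸ dvd_pow_self p hn.ne'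
    have h3 : p ∣ 1 := (Nat.dvd_add_right h).1 h2
    exact hp.one_lt.ne' (Nat.dvd_one.1 h3)
  have : NeZero (m : ℚ) := ⟨by exact_mod_cast hm0⟩
  obtain ⟨z, hz⟩ := HasEnoughRootsOfUnity.exists_primitiveRoot Qb m
  have hzm : z ^ m = 1 := hz.pow_eq_one
  have hzP : z ∈ P := mem_of_pow_eq_one P hm0 hzm
  -- the conjugates `x i = z ^ (p ^ i) = φ ^ i z`
  have hxm : ∀ i : ℕ, (z ^ (p ^ i)) ^ m = 1 := fun i => by
    rw [← pow_mul, mul_comm, pow_mul, hzm, one_pow]
  have hxP : ∀ i : ℕ, z ^ (p ^ i) ∈ P := fun i => mem_of_pow_eq_one P hm0 (hxm i)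
  have hφi : ∀ i : ℕ, (φ ^ i) z = z ^ (p ^ i) := frob_pow_apply hp hP hφ hpm hzm
  -- the differences `x 0 - x i`, `0 < i < n`, are units
  have hunit : ∀ i ∈ Finset.Ico 1 n, z - z ^ (p ^ i) ∉ P.nonunits := by
    intro i hi hmem
    obtain ⟨hi1, hin⟩ := Finset.mem_Ico.1 hi
    have h2 : 2 ≤ p ^ i := le_trans hp.two_le (Nat.le_self_pow (by omega) p)
    have h3 : p ^ i * 2 ≤ p ^ n :=
      calc p ^ i * 2 ≤ p ^ i * p := Nat.mul_le_mul_left _ hp.two_le
        _ = p ^ (i + 1) := (pow_succ p i).symm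
        _ ≤ p ^ n := Nat.pow_le_pow_right hp.pos (by omega)
    have h4 : z ^ 1 = z ^ (p ^ i) := by
      rw [pow_one]
      exact eq_of_sub_mem_nonunits hp hP hpm hzm (hxm i) hmem
    have h5 : 1 = p ^ i := hz.pow_inj (by omega) (by omega) h4
    omega
  have hne : ∀ i ∈ Finset.Ico 1 n, z - z ^ (p ^ i) ≠ 0 := fun i hi h0 =>
    hunit i hi (by rw [h0]; exact P.nonunits.zero_mem)
  have huP : ∀ i ∈ Finset.Ico 1 n, (z - z ^ (p ^ i))⁻¹ ∈ P := fun i hi =>
    inv_mem_of_notMem_nonunits (P.sub_mem hzP (hxP i)) (hunit i hi)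
  -- the Lagrange polynomial, over `P`
  have hu : ∏ i ∈ Finset.Ico 1 n, (z - z ^ (p ^ i))⁻¹ ∈ P := prod_mem huP
  set u : Qb := ∏ i ∈ Finset.Ico 1 n, (z - z ^ (p ^ i))⁻¹ with hu_def
  set Lp : Polynomial P :=
    C (⟨u, hu⟩ : P) * ∏ i ∈ Finset.Ico 1 n, (X - C (⟨z ^ (p ^ i), hxP i⟩ : P)) with hLp
  have hL : Lp.map P.subtype = C u * ∏ i ∈ Finset.Ico 1 n, (X - C (z ^ (p ^ i))) := by
    rw [hLp, Polynomial.map_mul, Polynomial.map_prod, Polynomial.map_C]
    congr 1
    refine Finset.prod_congr rfl fun i _ => ?_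
    rw [Polynomial.map_sub, Polynomial.map_X, Polynomial.map_C]
    rfl
  have hdeg : (Lp.map P.subtype).natDegree < n := by
    refine lt_of_le_of_lt (Polynomial.natDegree_map_le) ?_
    have h1 : Lp.natDegree ≤ (Finset.Ico 1 n).card := by
      rw [hLp]
      refine le_trans Polynomial.natDegree_mul_le ?_
      rw [Polynomial.natDegree_C, zero_add]
      refine le_trans (Polynomial.natDegree_prod_le _ _) ?_
      refine le_trans (Finset.sum_le_card_nsmul _ _ 1 fun i _ =>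
        Polynomial.natDegree_X_sub_C_le _) ?_
      simp
    rw [Nat.card_Ico] at h1
    omega
  have heval : ∀ y : Qb, (Lp.map P.subtype).eval y =
      u * ∏ i ∈ Finset.Ico 1 n, (y - z ^ (p ^ i)) := by
    intro y
    rw [hL, Polynomial.eval_mul, Polynomial.eval_C, Polynomial.eval_prod]
    congr 1
    refine Finset.prod_congr rfl fun i _ => ?_
    rw [Polynomial.eval_sub, Polynomial.eval_X, Polynomial.eval_C]
  refine ⟨z, fun j => (Lp.map P.subtype).coeff j, hzP, ?_, ?_, ?_, ?_⟩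
  · exact fun γ hγ => inertia_apply_of_pow_eq_one hp hP hγ hpm hzm
  · rw [hφi n, ← hm1, pow_succ, hzm, one_mul]
  · intro j
    show (Lp.map P.subtype).coeff (j : ℕ) ∈ P
    rw [Polynomial.coeff_map]
    exact (Lp.coeff j).2
  · intro i
    rw [hφi i, ← Finset.sum_range (fun j => (Lp.map P.subtype).coeff j * (z ^ (p ^ (i : ℕ))) ^ j),
      ← Polynomial.eval_eq_sum_range' hdeg, heval]
    by_cases hi : (i : ℕ) = 0
    · rw [if_pos hi, hi, pow_zero, pow_one, hu_def, ← Finset.prod_mul_distrib]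
      exact Finset.prod_eq_one fun k hk => inv_mul_cancel₀ (hne k hk)
    · rw [if_neg hi]
      have hmem : (i : ℕ) ∈ Finset.Ico 1 n := Finset.mem_Ico.2 ⟨by omega, i.2⟩
      rw [Finset.prod_eq_zero hmem (sub_self _), mul_zero]

end Fermat.Agent.S59.H366
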